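import Fermat.Agent.Curve37.Descent
import Fermat.Agent.MordellWeil.Structure
import Fermat.Agent.Frob.VarChange
import Fermat.Agent.Root.SummaryRankOne

/-!
# The Mordell–Weil group of `37a1`

`y² + y = x³ - x` has group of rational points isomorphic to `ℤ`: every point is twice a point or
`(0, 0)` plus such a point, so the rank is at most one; the torsion is trivial and `(0, 0)` has
infinite order.
-/

set_option autoImplicit false
set_option linter.style.haveILetI false

noncomputable section

open WeierstrassCurve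
open FA.Frob (vcEquiv)
open FA.Torsion (shortCurve)

namespace FA.Curve37

/-- The curve `37a1`. -/
abbrev curve : WeierstrassCurve ℚ := ⟨0, 0, 1, -1, 0⟩

instance isElliptic_curve : curve.IsElliptic :=
  ⟨isUnit_iff_ne_zero.mpr (by norm_num [Δ, b₂, b₄, b₆, b₈])⟩

/-- The change of coordinates to `W² = X³ - 16 X + 16`. -/
def toShort : VariableChange ℚ := ⟨Units.mk0 (1 / 2) (by norm_num), 0, 0, -1 / 2⟩

theorem toShort_smul : toShort • curve = shortCurve 0 (-16) 16 := by
  ext <;> simp [toShort, shortCurve, variableChange_a₁, variableChange_a₂, variableChange_a₃,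
    variableChange_a₄, variableChange_a₆] <;> norm_num

theorem two_divisible_or :
    ∃ B : curve.toAffine.Point, ∀ P, ∃ R, P = 2 • R ∨ P = B + 2 • R := by
  set φ := vcEquiv toShort toShort_smul
  obtain ⟨B, hB⟩ := exists_half_or
  refine ⟨φ B, fun P => ?_⟩
  obtain ⟨R, hR | hR⟩ := hB (φ.symm P)
  · exact ⟨φ R, Or.inl (by rw [← map_nsmul, ← hR, AddEquiv.apply_symm_apply])⟩
  · exact ⟨φ R, Or.inr (by rw [← map_nsmul, ← map_add, ← hR, AddEquiv.apply_symm_apply])⟩

/-- A finitely generated group in which `2 G` and one translate of it cover everything has rank at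
most one. -/
theorem rank_le_one {G T : Type*} [AddCommGroup G] [AddCommGroup T] {r : ℕ}
    (e : G ≃+ T × (Fin r → ℤ)) (B : G) (h : ∀ P : G, ∃ R, P = 2 • R ∨ P = B + 2 • R) : r ≤ 1 := by
  by_contra! hr
  set i : Fin r := ⟨0, by omega⟩
  set j : Fin r := ⟨1, by omega⟩
  have hij : i ≠ j := by simp [i, j, Fin.ext_iff]
  obtain ⟨R, hR | hR⟩ := h (e.symm (0, Pi.single i 1))
  · have e1 := congrArg (fun Q => (e Q).2 i) hR
    simp [map_nsmul] at e1
    omega
  obtain ⟨S, hS | hS⟩ := h (e.symm (0, Pi.single j 1))
  · have e1 := congrArg (fun Q => (e Q).2 j) hS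
    simp [map_nsmul] at e1
    omega
  have e1 := congrArg (fun Q => (e Q).2 i) hR
  have e2 := congrArg (fun Q => (e Q).2 i) hS
  simp [map_nsmul, hij] at e1 e2
  omega

end FA.Curve37

namespace FA.Summary

open FA.Curve37

/-- **The Mordell–Weil group of `37a1`** is `ℤ`. -/
theorem point_group_curve37 :
    Nonempty ((⟨0, 0, 1, -1, 0⟩ : WeierstrassCurve ℚ).toAffine.Point ≃+ ℤ) := by
  haveI := FA.MordellWeil.mordell curve
  obtain ⟨r, ⟨e⟩⟩ := FA.MordellWeil.exists_equiv_torsion_prod curve.toAffine.Point
  have hT : Subsingleton (AddCommGroup.torsion curve.toAffine.Point) :=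
    (Nat.card_eq_one_iff_unique.mp (Nat.dvd_one.mp FA.Central.torsion_trivial_37.2)).1
  obtain ⟨B, hB⟩ := two_divisible_or
  have h1 : r ≤ 1 := rank_le_one e B hB
  have h0 : r ≠ 0 := by
    rintro rfl
    haveI : Infinite curve.toAffine.Point := rankOne_37a1.2.2.1
    haveI := FA.Central.torsion_trivial_37.1
    exact not_finite_iff_infinite.mpr ‹Infinite curve.toAffine.Point› (Finite.of_equiv _ e.toEquiv.symm)
  obtain rfl : r = 1 := by omega
  exact ⟨e.trans
    { toFun := fun x => x.2 0
      invFun := fun k => (0, fun _ => k)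
      left_inv := fun x => Prod.ext (Subsingleton.elim _ _) (funext fun i => by fin_cases i; rfl)
      right_inv := fun _ => rfl
      map_add' := fun _ _ => rfl }⟩

end FA.Summary

end
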