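import Mathlib.NumberTheory.NumberField.ClassNumber
import Mathlib.NumberTheory.NumberField.Units.DirichletTheorem
import Mathlib.NumberTheory.NumberField.Discriminant.Basic
import Mathlib.Algebra.Polynomial.SpecificDegree
import Mathlib.RingTheory.Ideal.Norm.AbsNorm
import Mathlib.Analysis.Real.Pi.Bounds
import Mathlib.Tactic.NormNum.Prime
import Mathlib.Topology.Order.IntermediateValue

/-!
# The cubic field of discriminant `148`

`K = ℚ(φ)` with `φ³ - 4φ + 2 = 0`, the totally real field of the points of order two of `37a1`: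
class number one, and a unit which is positive in all three real embeddings is a square.
-/

set_option autoImplicit false
set_option linter.style.haveILetI false
set_option linter.unusedSimpArgs false

noncomputable section

open Polynomial NumberField Module

namespace FA.Curve37

/-- The polynomial of `φ`. -/
def fK : ℚ[X] := X ^ 3 - C 4 * X + C 2

theorem fK_monic : fK.Monic := by unfold fK; monicity!

theorem natDegree_fK : fK.natDegree = 3 := by unfold fK; compute_degree!

theorem no_rat_root (x : ℚ) : x ^ 3 - 4 * x + 2 ≠ 0 := by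
  intro hx
  have e : x.num ^ 3 - 4 * x.num * (x.den : ℤ) ^ 2 + 2 * (x.den : ℤ) ^ 3 = 0 := by
    have : (x.num : ℚ) ^ 3 - 4 * (x.num : ℚ) * (x.den : ℚ) ^ 2 + 2 * (x.den : ℚ) ^ 3 = 0 := by
      rw [← Rat.mul_den_eq_num x]; linear_combination (x.den : ℚ) ^ 3 * hx
    exact_mod_cast this
  obtain ⟨m, hm⟩ : (2 : ℤ) ∣ x.num := Int.prime_two.dvd_of_dvd_pow (n := 3)
    ⟨2 * x.num * (x.den : ℤ) ^ 2 - (x.den : ℤ) ^ 3, by linear_combination e⟩
  rw [hm] at e
  have hd : (2 : ℤ) ∣ (x.den : ℤ) := Int.prime_two.dvd_of_dvd_pow (n := 3)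
    ⟨-2 * m ^ 3 + 2 * m * (x.den : ℤ) ^ 2, by linarith⟩
  exact absurd (Nat.dvd_gcd (Int.natCast_dvd.mp ⟨m, hm⟩) (Int.natCast_dvd_natCast.mp hd))
    (by rw [x.reduced]; decide)

theorem fK_irreducible : Irreducible fK := by
  rw [fK_monic.irreducible_iff_roots_eq_zero_of_degree_le_three (by rw [natDegree_fK]; omega)
    (by rw [natDegree_fK])]
  refine Multiset.eq_zero_of_forall_notMem fun x hx => no_rat_root x ?_
  have := (mem_roots'.mp hx).2
  simpa [fK] using this

instance fact_fK : Fact (Irreducible fK) := ⟨fK_irreducible⟩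

/-- The cubic field. -/
abbrev K : Type := AdjoinRoot fK

/-- The root. -/
abbrev phi : K := AdjoinRoot.root fK

instance charZero_K : CharZero K := charZero_of_injective_algebraMap (algebraMap ℚ K).injective

instance finiteDimensional_K : FiniteDimensional ℚ K :=
  (AdjoinRoot.powerBasis fK_monic.ne_zero).finite

instance numberField_K : NumberField K := {}

theorem phi_eq : phi ^ 3 - 4 * phi + 2 = 0 := by
  have h : aeval phi fK = 0 := (AdjoinRoot.aeval_eq fK).trans AdjoinRoot.mk_self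
  simpa [fK, map_ofNat] using h

theorem finrank_K : finrank ℚ K = 3 := by
  rw [(AdjoinRoot.powerBasis fK_monic.ne_zero).finrank, AdjoinRoot.powerBasis_dim, natDegree_fK]

/-- The basis `1, φ, φ²`. -/
def basisK : Basis (Fin 3) ℚ K :=
  (AdjoinRoot.powerBasis fK_monic.ne_zero).basis.reindex
    (finCongr (by rw [AdjoinRoot.powerBasis_dim, natDegree_fK]))

theorem basisK_apply (j : Fin 3) : basisK j = phi ^ (j : ℕ) := by simp [basisK, phi]

/-- The element `x + y φ + z φ²`. -/
def el (x y z : ℚ) : K := (x : K) + (y : K) * phi + (z : K) * phi ^ 2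

theorem el_eq_sum (x y z : ℚ) : el x y z = ∑ i, ![x, y, z] i • basisK i := by
  simp [el, Fin.sum_univ_three, basisK_apply, Algebra.smul_def]

theorem el_inj {x y z x' y' z' : ℚ} (h : el x y z = el x' y' z') :
    x = x' ∧ y = y' ∧ z = z' := by
  rw [el_eq_sum, el_eq_sum] at h
  have e : ∀ c : Fin 3 → ℚ, ⇑(basisK.repr (∑ i, c i • basisK i)) = c := fun c =>
    funext fun i => by rw [Basis.repr_sum_self]
  have := e ![x, y, z]
  rw [h, e] at this
  have h0 := congrFun this 0
  have h1 := congrFun this 1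
  have h2 := congrFun this 2
  simp at h0 h1 h2
  exact ⟨h0.symm, h1.symm, h2.symm⟩

theorem exists_el (k : K) : ∃ x y z : ℚ, k = el x y z :=
  ⟨basisK.repr k 0, basisK.repr k 1, basisK.repr k 2, by
    conv_lhs => rw [← basisK.sum_repr k]
    simp [el, Fin.sum_univ_three, basisK_apply, Algebra.smul_def]⟩

theorem el_mul (x y z x' y' z' : ℚ) : el x y z * el x' y' z' =
    el (x * x' - 2 * (y * z' + z * y'))
      (x * y' + y * x' + 4 * (y * z' + z * y') - 2 * (z * z'))
      (x * z' + y * y' + z * x' + 4 * (z * z')) := by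
  simp only [el]
  push_cast
  linear_combination ((y : K) * z' + z * y' + z * z' * phi) * phi_eq

theorem leftMul_el (x y z : ℚ) : Algebra.leftMulMatrix basisK (el x y z) =
    !![x, -2 * z, -2 * y; y, x + 4 * z, 4 * y - 2 * z; z, y, x + 4 * z] := by
  ext i j
  rw [Algebra.leftMulMatrix_eq_repr_mul, basisK_apply]
  have hcol : el x y z * phi ^ (j : ℕ) = ∑ k, !![x, -2 * z, -2 * y;
      y, x + 4 * z, 4 * y - 2 * z; z, y, x + 4 * z] k j • basisK k := by
    fin_cases j <;> simp [el, Fin.sum_univ_three, basisK_apply, Algebra.smul_def, map_ofNat]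
    · linear_combination (z : K) * phi_eq
    · linear_combination ((z : K) * phi + y) * phi_eq
  rw [hcol, Basis.repr_sum_self]

theorem norm_el (x y z : ℚ) : Algebra.norm ℚ (el x y z) =
    x * ((x + 4 * z) * (x + 4 * z) - (4 * y - 2 * z) * y) -
      -2 * z * (y * (x + 4 * z) - (4 * y - 2 * z) * z) +
      -2 * y * (y * y - (x + 4 * z) * z) := by
  rw [Algebra.norm_eq_matrix_det basisK, leftMul_el, Matrix.det_fin_three]
  simp
  ring

theorem isIntegral_phi : IsIntegral ℤ phi :=
  ⟨X ^ 3 - C 4 * X + C 2, by monicity!, by simpa using phi_eq⟩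

/-- The root as an algebraic integer. -/
def phiO : 𝓞 K := ⟨phi, isIntegral_phi⟩

@[simp] theorem coe_phiO : (phiO : K) = phi := rfl

theorem phiO_eq : phiO ^ 3 - 4 * phiO + 2 = 0 :=
  RingOfIntegers.ext (by simpa [map_ofNat] using phi_eq)

/-! ### The discriminant and the class number -/

theorem discr_powers : Algebra.discr ℚ (fun j : Fin 3 => phi ^ (j : ℕ)) = 148 := by
  have htr : ∀ x y z : ℚ, Algebra.trace ℚ K (el x y z) = 3 * x + 8 * z := fun x y z => by
    rw [Algebra.trace_eq_matrix_trace basisK, leftMul_el, Matrix.trace_fin_three]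
    simp
    ring
  have hM : Algebra.traceMatrix ℚ (fun j : Fin 3 => phi ^ (j : ℕ)) =
      !![3, 0, 8; 0, 8, -6; 8, -6, 32] := by
    ext i j
    rw [Algebra.traceMatrix_apply, Algebra.traceForm_apply, ← pow_add]
    have h0 : phi ^ 0 = el 1 0 0 := by simp [el]
    have h1 : phi ^ 1 = el 0 1 0 := by simp [el]
    have h2 : phi ^ 2 = el 0 0 1 := by simp [el]
    have h3 : phi ^ 3 = el (-2) 4 0 := by
      simp [el]; linear_combination phi_eq
    have h4 : phi ^ 4 = el 0 (-2) 4 := by
      simp [el]; linear_combination phi * phi_eq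
    have ht1 : Algebra.trace ℚ K 1 = 3 := by
      simpa [el] using htr 1 0 0
    have htp : Algebra.trace ℚ K phi = 0 := by
      simpa [el] using htr 0 1 0
    fin_cases i <;> fin_cases j <;> norm_num [ht1, htp, h0, h1, h2, h3, h4, htr]
  rw [Algebra.discr_def, hM, Matrix.det_fin_three]
  simp
  norm_num

theorem abs_discr_le : |discr K| ≤ 148 := by
  classical
  set b : Fin 3 → K := fun j => phi ^ (j : ℕ) with hb
  have hint : ∀ i, IsIntegral ℤ (b i) := fun i => isIntegral_phi.pow _
  let e : Fin 3 ≃ Free.ChooseBasisIndex ℤ (𝓞 K) := Fintype.equivOfCardEq (by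
    rw [Fintype.card_fin, ← finrank_K, ← Module.finrank_eq_card_basis (integralBasis K)])
  let bas := (integralBasis K).reindex e.symm
  let P₀ : Matrix (Fin 3) (Fin 3) ℤ := fun i j =>
    (RingOfIntegers.basis K).repr (⟨b j, hint j⟩ : 𝓞 K) (e i)
  have hP : bas.toMatrix b = P₀.map (algebraMap ℤ ℚ) := by
    ext i j
    rw [Basis.toMatrix_apply, Basis.repr_reindex_apply, Matrix.map_apply, e.symm_symm]
    exact integralBasis_repr_apply K (⟨b j, hint j⟩ : 𝓞 K) (e i)
  have h := Algebra.discr_of_matrix_vecMul (A := ℚ) (bas : Fin 3 → K) (bas.toMatrix b)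
  rw [Basis.toMatrix_map_vecMul, Basis.coe_reindex, e.symm_symm,
    show (integralBasis K : _ → K) ∘ e = (integralBasis K) ∘ ⇑e.symm.symm from rfl,
    Algebra.discr_reindex, ← coe_discr, hP,
    show P₀.map (algebraMap ℤ ℚ) = (algebraMap ℤ ℚ).mapMatrix P₀ from rfl, ← RingHom.map_det,
    hb, discr_powers] at h
  have h' : (148 : ℤ) = P₀.det ^ 2 * discr K := by
    rw [eq_intCast] at h
    exact_mod_cast h
  exact Int.le_of_dvd (by norm_num) ((abs_dvd _ _).mpr ⟨P₀.det ^ 2, by linear_combination h'⟩)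

/-! ### Signature -/

theorem exists_roots : ∃ r : Fin 3 → ℝ, (∀ i, r i ^ 3 - 4 * r i + 2 = 0) ∧
    r 0 ∈ Set.Ioo (-3 : ℝ) (-2) ∧ r 1 ∈ Set.Ioo (0 : ℝ) 1 ∧ r 2 ∈ Set.Ioo (1 : ℝ) 2 := by
  set f : ℝ → ℝ := fun t => t ^ 3 - 4 * t + 2
  have hf : Continuous f := by fun_prop
  obtain ⟨a, ha, ha'⟩ := intermediate_value_Ioo (show (-3 : ℝ) ≤ -2 by norm_num) hf.continuousOn
    (show (0 : ℝ) ∈ Set.Ioo (f (-3)) (f (-2)) by norm_num [f])
  obtain ⟨b, hb, hb'⟩ := intermediate_value_Ioo' (show (0 : ℝ) ≤ 1 by norm_num) hf.continuousOn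
    (show (0 : ℝ) ∈ Set.Ioo (f 1) (f 0) by norm_num [f])
  obtain ⟨c, hc, hc'⟩ := intermediate_value_Ioo (show (1 : ℝ) ≤ 2 by norm_num) hf.continuousOn
    (show (0 : ℝ) ∈ Set.Ioo (f 1) (f 2) by norm_num [f])
  refine ⟨![a, b, c], fun i => ?_, ha, hb, hc⟩
  fin_cases i <;> assumption

/-- The three real roots, in increasing order. -/
def root (i : Fin 3) : ℝ := exists_roots.choose i

theorem root_eq (i : Fin 3) : root i ^ 3 - 4 * root i + 2 = 0 := exists_roots.choose_spec.1 i

theorem root_zero_mem : root 0 ∈ Set.Ioo (-3 : ℝ) (-2) := exists_roots.choose_spec.2.1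

theorem root_one_mem : root 1 ∈ Set.Ioo (0 : ℝ) 1 := exists_roots.choose_spec.2.2.1

theorem root_two_mem : root 2 ∈ Set.Ioo (1 : ℝ) 2 := exists_roots.choose_spec.2.2.2

/-- The real embeddings. -/
def sig (i : Fin 3) : K →+* ℝ :=
  AdjoinRoot.lift (algebraMap ℚ ℝ) (root i) (by simpa [fK, map_ofNat] using root_eq i)

theorem sig_phi (i : Fin 3) : sig i phi = root i := AdjoinRoot.lift_root _

theorem eq_root_of_eq {z : ℂ} (hz : z ^ 3 - 4 * z + 2 = 0) : ∃ i, z = (root i : ℂ) := by
  obtain ⟨ha, hb, hc⟩ := And.intro root_zero_mem (And.intro root_one_mem root_two_mem)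
  set a := root 0
  set b := root 1
  set c := root 2
  have key : ∀ {x y : ℝ}, x ^ 3 - 4 * x + 2 = 0 → y ^ 3 - 4 * y + 2 = 0 → x ≠ y →
      x ^ 2 + x * y + y ^ 2 - 4 = 0 := fun {x y} hx hy hne =>
    (mul_eq_zero.mp (show (x - y) * (x ^ 2 + x * y + y ^ 2 - 4) = 0 by
      linear_combination hx - hy)).resolve_left (sub_ne_zero.mpr hne)
  have hab := key (root_eq 0) (root_eq 1) (by linarith [ha.2, hb.1])
  have hac := key (root_eq 0) (root_eq 2) (by linarith [ha.2, hc.1])
  have hsum : a + b + c = 0 := (mul_eq_zero.mp (show (b - c) * (a + b + c) = 0 by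
    linear_combination hab - hac)).resolve_left (by linarith [hb.2, hc.1])
  have hA : ((a : ℂ)) ^ 2 + (a : ℂ) * b + (b : ℂ) ^ 2 - 4 = 0 := by exact_mod_cast hab
  have hB : (a : ℂ) ^ 3 - 4 * a + 2 = 0 := by exact_mod_cast root_eq 0
  have hprod : (z - a) * ((z - b) * (z - ((root 2 : ℝ) : ℂ))) = 0 := by
    push_cast [show root 2 = -(a + b) by linarith]
    linear_combination hz - hB + ((a : ℂ) - z) * hA
  rcases mul_eq_zero.mp hprod with h | h
  · exact ⟨0, sub_eq_zero.mp h⟩
  rcases mul_eq_zero.mp h with h | h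
  · exact ⟨1, sub_eq_zero.mp h⟩
  · exact ⟨2, sub_eq_zero.mp h⟩

theorem isReal_all (w : InfinitePlace K) : w.IsReal := by
  rw [← InfinitePlace.mk_embedding w]
  refine ⟨w.embedding, ?_, rfl⟩
  obtain ⟨i, hi⟩ := eq_root_of_eq (z := w.embedding phi)
    (by simpa [map_ofNat] using congrArg w.embedding phi_eq)
  refine RingHom.ext fun k => ?_
  obtain ⟨x, y, z, rfl⟩ := exists_el k
  simp [el, ComplexEmbedding.conjugate_coe_eq, hi]

theorem nrComplexPlaces_eq : InfinitePlace.nrComplexPlaces K = 0 := by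
  classical
  rw [InfinitePlace.nrComplexPlaces, Fintype.card_eq_zero_iff]
  exact ⟨fun w => InfinitePlace.not_isReal_iff_isComplex.mpr w.2 (isReal_all w.1)⟩

theorem prime_of_norm {π : 𝓞 K} {n : ℤ} (hn : n.natAbs.Prime)
    (h : Algebra.norm ℚ (π : K) = n) : Prime π := by
  have h' : Algebra.norm ℤ π = n := by
    rw [← Algebra.coe_norm_int] at h; exact_mod_cast h
  have hπ : π ≠ 0 := fun e => by
    rw [e, Algebra.norm_zero] at h'
    rw [← h'] at hn
    exact Nat.not_prime_zero hn
  rw [← Ideal.span_singleton_prime hπ]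
  refine Ideal.isPrime_of_irreducible_absNorm ?_
  rw [Ideal.absNorm_span_singleton, h']
  exact hn.prime.irreducible

theorem norm_phi : Algebra.norm ℚ phi = -2 := by
  rw [show phi = el 0 1 0 by simp [el], norm_el]
  norm_num

theorem prime_phiO : Prime phiO :=
  prime_of_norm (n := -2) (by norm_num) (by rw [coe_phiO, norm_phi]; norm_num)

theorem isPrincipalIdealRing_K : IsPrincipalIdealRing (𝓞 K) := by
  refine RingOfIntegers.isPrincipalIdealRing_of_isPrincipal_of_norm_le_of_isPrime fun I hI hN => ?_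
  have hlt : (4 / Real.pi) ^ InfinitePlace.nrComplexPlaces K *
      ((Nat.factorial (finrank ℚ K)) / (finrank ℚ K : ℝ) ^ (finrank ℚ K) * √|(discr K : ℝ)|) < 3 := by
    rw [nrComplexPlaces_eq, finrank_K, pow_zero, one_mul, show Nat.factorial 3 = 6 from rfl]
    have hs : √|(discr K : ℝ)| ≤ 122 / 10 := by
      rw [← Real.sqrt_sq (show (0 : ℝ) ≤ 122 / 10 by norm_num)]
      refine Real.sqrt_le_sqrt ?_
      rw [← Int.cast_abs]
      exact le_trans (Int.cast_le.2 abs_discr_le) (by norm_num)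
    calc _ ≤ (6 / 3 ^ 3 * (122 / 10) : ℝ) := by push_cast; gcongr
      _ < 3 := by norm_num
  set n := Ideal.absNorm (I : Ideal (𝓞 K)) with hn
  have hn3 : n < 3 := by
    have : ((n : ℕ) : ℝ) < ((3 : ℕ) : ℝ) := by push_cast; exact hN.trans_lt hlt
    exact_mod_cast this
  have h0 : n ≠ 0 := by rw [hn, Ne, Ideal.absNorm_eq_zero_iff]; exact nonZeroDivisors.coe_ne_zero I
  have h1 : n ≠ 1 := fun e => hI.ne_top (Ideal.absNorm_eq_one_iff.1 e)
  obtain e : n = 2 := by omega
  have hmem : (n : 𝓞 K) ∈ (I : Ideal (𝓞 K)) := Ideal.absNorm_mem _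
  rw [e, Nat.cast_ofNat] at hmem
  have hphi : phiO ∈ (I : Ideal (𝓞 K)) := hI.mem_of_pow_mem 3 (by
    rw [show phiO ^ 3 = 2 * (2 * phiO - 1) by linear_combination phiO_eq]
    exact Ideal.mul_mem_right _ _ hmem)
  have hmax : (Ideal.span {phiO}).IsMaximal :=
    ((Ideal.span_singleton_prime prime_phiO.ne_zero).mpr prime_phiO).isMaximal
      (by simpa [Ideal.span_singleton_eq_bot] using prime_phiO.ne_zero)
  exact ⟨⟨phiO, (hmax.eq_of_le hI.ne_top ((Ideal.span_singleton_le_iff_mem _).mpr hphi)).symm⟩⟩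

theorem rank_K : Units.rank K = 2 := by
  have h := InfinitePlace.card_eq_nrRealPlaces_add_nrComplexPlaces (K := K)
  have h' := InfinitePlace.card_add_two_mul_card_eq_rank K
  rw [nrComplexPlaces_eq, finrank_K] at h'
  rw [nrComplexPlaces_eq] at h
  show Fintype.card (InfinitePlace K) - 1 = 2
  omega

/-! ### Totally positive units -/

/-- The unit `φ - 1`. -/
def unitA : (𝓞 K)ˣ :=
  Units.mkOfMulEqOne (phiO - 1) (phiO ^ 2 + phiO - 3) (by linear_combination phiO_eq)

/-- The unit `1 - 2φ`. -/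
def unitB : (𝓞 K)ˣ :=
  Units.mkOfMulEqOne (1 - 2 * phiO) (4 * phiO ^ 2 + 2 * phiO - 15)
    (by linear_combination -8 * phiO_eq)

theorem coe_unitA : ((unitA : 𝓞 K) : K) = phi - 1 := by simp [unitA]

theorem coe_unitB : ((unitB : 𝓞 K) : K) = 1 - 2 * phi := by simp [unitB, map_ofNat]

/-- The pattern of negative signs of a unit. -/
def signs (u : (𝓞 K)ˣ) (i : Fin 3) : Bool := decide (sig i ((u : 𝓞 K) : K) < 0)

theorem sig_unit_ne_zero (i : Fin 3) (u : (𝓞 K)ˣ) : sig i ((u : 𝓞 K) : K) ≠ 0 :=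
  (map_ne_zero (sig i)).mpr (Units.coe_ne_zero u)

theorem signs_mul (u v : (𝓞 K)ˣ) : signs (u * v) = fun i => xor (signs u i) (signs v i) := by
  funext i
  simp only [signs, Units.val_mul, map_mul, mul_neg_iff]
  rcases (sig_unit_ne_zero i u).lt_or_gt with hu | hu <;>
    rcases (sig_unit_ne_zero i v).lt_or_gt with hv | hv <;>
    simp [hu, hv, hu.not_gt, hv.not_gt]

theorem signs_sq (u : (𝓞 K)ˣ) : signs (u ^ 2) = fun _ => false := by
  rw [pow_two, signs_mul]; simp

theorem signs_one : signs 1 = fun _ => false := by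
  funext i; simp [signs]

theorem signs_neg_one : signs (-1) = ![true, true, true] := by
  funext i; fin_cases i <;> simp [signs]

theorem signs_unitA : signs unitA = ![true, true, false] := by
  funext i
  simp only [signs, coe_unitA, map_sub, map_one, sig_phi]
  fin_cases i <;> simp <;>
    linarith [root_zero_mem.1, root_zero_mem.2, root_one_mem.1, root_one_mem.2, root_two_mem.1]

theorem signs_unitB : signs unitB = ![false, true, true] := by
  funext i
  simp only [signs, coe_unitB, map_sub, map_mul, map_one, map_ofNat, sig_phi]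
  fin_cases i <;> simp
  · linarith [root_zero_mem.2]
  · by_contra! h
    linarith [root_eq 1, pow_pos root_one_mem.1 3]
  · linarith [root_two_mem.1]

/-- A unit positive in the three embeddings is a square. -/
theorem exists_sq_of_signs {u : (𝓞 K)ˣ} (hu : signs u = fun _ => false) : ∃ η, u = η ^ 2 := by
  classical
  have hodd : Odd (finrank ℚ K) := by rw [finrank_K]; decide
  let q : Fin 2 ≃ Fin (Units.rank K) := finCongr rank_K.symm
  set F : Fin 2 → (𝓞 K)ˣ := fun j => Units.fundSystem K (q j) with hF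
  set rp : Bool × Bool × Bool → (𝓞 K)ˣ :=
    fun b => (if b.1 then -1 else 1) * (if b.2.1 then F 0 else 1) * (if b.2.2 then F 1 else 1)
      with hrp
  have half : ∀ (v : (𝓞 K)ˣ) (n : ℤ), ∃ (b : Bool) (η : (𝓞 K)ˣ),
      v ^ n = (if b then v else 1) * η ^ 2 := fun v n => by
    obtain ⟨j, rfl | rfl⟩ := Int.even_or_odd' n
    · exact ⟨false, v ^ j, by rw [mul_comm 2 j, zpow_mul]; simp [zpow_ofNat]⟩
    · exact ⟨true, v ^ j, by
        rw [zpow_add_one, mul_comm 2 j, zpow_mul, zpow_ofNat, if_pos rfl, mul_comm]⟩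
  have decomp : ∀ v : (𝓞 K)ˣ, ∃ b η, v = rp b * η ^ 2 := fun v => by
    obtain ⟨⟨t, f⟩, hv, -⟩ := Units.exist_unique_eq_mul_prod K v
    obtain ⟨a, η₀, h₀⟩ := half (F 0) (f (q 0))
    obtain ⟨b, η₁, h₁⟩ := half (F 1) (f (q 1))
    have ht : ∃ c : Bool, (t : (𝓞 K)ˣ) = if c then -1 else 1 := by
      rcases Units.torsion_eq_one_or_neg_one_of_odd_finrank hodd t with h | h
      · exact ⟨false, by simp [h]⟩
      · exact ⟨true, by simp [h]⟩
    obtain ⟨c, hc⟩ := ht
    refine ⟨(c, a, b), η₀ * η₁, ?_⟩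
    rw [hv, ← Equiv.prod_comp q, Fin.prod_univ_two]
    simp only [hF] at h₀ h₁
    rw [h₀, h₁, hc, mul_pow]
    simp only [hrp, hF]
    ac_rfl
  have hsur : Function.Surjective fun b => signs (rp b) := fun s => by
    obtain ⟨v, rfl⟩ : ∃ v, signs v = s := by
      have hs : s = ![s 0, s 1, s 2] := by funext i; fin_cases i <;> rfl
      rcases Bool.eq_false_or_eq_true (s 0) with h0 | h0 <;>
        rcases Bool.eq_false_or_eq_true (s 1) with h1 | h1 <;>
        rcases Bool.eq_false_or_eq_true (s 2) with h2 | h2 <;> rw [hs, h0, h1, h2]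
      · exact ⟨-1, signs_neg_one⟩
      · exact ⟨unitA, signs_unitA⟩
      · exact ⟨unitA * unitB, by rw [signs_mul, signs_unitA, signs_unitB]; decide⟩
      · exact ⟨-1 * unitB, by rw [signs_mul, signs_neg_one, signs_unitB]; decide⟩
      · exact ⟨unitB, signs_unitB⟩
      · exact ⟨-1 * (unitA * unitB), by
          rw [signs_mul, signs_mul, signs_neg_one, signs_unitA, signs_unitB]; decide⟩
      · exact ⟨-1 * unitA, by rw [signs_mul, signs_neg_one, signs_unitA]; decide⟩
      · exact ⟨1, by rw [signs_one]; decide⟩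
    obtain ⟨b, η, rfl⟩ := decomp v
    exact ⟨b, by simp [signs_mul, signs_sq]⟩
  have hinj := ((Fintype.bijective_iff_surjective_and_card _).mpr ⟨hsur, by simp⟩).1
  obtain ⟨b, η, rfl⟩ := decomp u
  have e : b = (false, false, false) := hinj (by
    rw [signs_mul, signs_sq] at hu
    simpa [hrp, signs_one] using hu)
  exact ⟨η, by simp [e, hrp]⟩

/-! ### A prime over `37` -/

/-- A prime over `37`. -/
def piThirtySeven : 𝓞 K := -13 + 2 * phiO + 4 * phiO ^ 2

theorem norm_piThirtySeven : Algebra.norm ℚ (piThirtySeven : K) = -37 := by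
  rw [show (piThirtySeven : K) = el (-13) 2 4 by simp [piThirtySeven, el, map_ofNat], norm_el]
  norm_num

theorem prime_piThirtySeven : Prime piThirtySeven :=
  prime_of_norm (n := -37) (by norm_num) (by rw [norm_piThirtySeven]; norm_num)

end FA.Curve37

end
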