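import Fermat.Agent.Curve11.Descent
import Fermat.Agent.Curve37.Field
import Fermat.Agent.TwoDescent.Short

/-!
# Two-descent on `W² = X³ - 16 X + 16`

For a rational point `X - θ` is a square or `1 - 2φ` times a square in the cubic field, so every
point is twice a point or one fixed point plus such a point.
-/

set_option autoImplicit false
set_option linter.style.haveILetI false
set_option linter.unusedSimpArgs false
set_option linter.unusedTactic false

noncomputable section

open NumberField WeierstrassCurve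
open FA.Torsion (shortCurve)

namespace FA.Curve37

/-- The root of `X³ - 16 X + 16`. -/
def theta : K := 2 * phi

/-- The root as an algebraic integer. -/
def thetaO : 𝓞 K := 2 * phiO

theorem coe_thetaO : (thetaO : K) = theta := by simp [thetaO, theta, map_ofNat]

theorem theta_eq : theta ^ 3 - 16 * theta + 16 = 0 := by
  simp only [theta]
  linear_combination 8 * phi_eq

theorem thetaO_eq : thetaO ^ 3 - 16 * thetaO + 16 = 0 :=
  RingOfIntegers.ext (by simpa [coe_thetaO, map_ofNat] using theta_eq)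

theorem el_sub_theta (X : ℚ) : (X : K) - theta = el X (-2) 0 := by
  simp [theta, el]; ring

theorem quad_theta_eq_zero {a b c : ℚ}
    (h : (a : K) * theta ^ 2 + (b : K) * theta + (c : K) = 0) : a = 0 ∧ b = 0 ∧ c = 0 := by
  have h' : el c (2 * b) (4 * a) = el 0 0 0 := by
    simp only [theta] at h
    simp [el]
    linear_combination h
  obtain ⟨h0, h1, h2⟩ := el_inj h'
  exact ⟨by linarith, by linarith, h0⟩

theorem prod_sub_root (T : ℝ) :
    (T - root 0) * (T - root 1) * (T - root 2) = T ^ 3 - 4 * T + 2 := by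
  have key : ∀ i j, root i ≠ root j → root i ^ 2 + root i * root j + root j ^ 2 - 4 = 0 :=
    fun i j hne => (mul_eq_zero.mp (show (root i - root j) *
      (root i ^ 2 + root i * root j + root j ^ 2 - 4) = 0 by
        linear_combination root_eq i - root_eq j)).resolve_left (sub_ne_zero.mpr hne)
  have hab := key 0 1 (by linarith [root_zero_mem.2, root_one_mem.1])
  have hac := key 0 2 (by linarith [root_zero_mem.2, root_two_mem.1])
  have hsum : root 2 = -(root 0 + root 1) := by
    have := (mul_eq_zero.mp (show (root 1 - root 2) * (root 0 + root 1 + root 2) = 0 by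
      linear_combination hab - hac)).resolve_left (by linarith [root_one_mem.2, root_two_mem.1])
    linarith
  rw [hsum]
  linear_combination (root 0 - T) * hab - root_eq 0

/-- **The two-descent**: `X - θ` is a square, or `1 - 2φ` times one, for every rational point. -/
theorem sub_theta_class {X W : ℚ} (h : W ^ 2 = X ^ 3 - 16 * X + 16) :
    ∃ s : K, (X : K) - theta = s ^ 2 ∨ (X : K) - theta = (1 - 2 * phi) * s ^ 2 := by
  haveI := isPrincipalIdealRing_K
  set n := X.num
  set q : ℤ := (X.den : ℤ) with hqd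
  have hq : 0 < q := Int.natCast_pos.2 X.den_pos
  have hq0 : (q : ℚ) ≠ 0 := by exact_mod_cast hq.ne'
  have hX : X * (q : ℚ) = (n : ℚ) := by
    rw [hqd, Int.cast_natCast]; exact Rat.mul_den_eq_num X
  have hco : IsCoprime n q := Int.isCoprime_iff_gcd_eq_one.2 X.reduced
  set H : ℤ := n ^ 3 - 16 * n * q ^ 2 + 16 * q ^ 3 with hH
  have hXne : (X : K) - theta ≠ 0 := fun e => by
    rw [el_sub_theta, show (0 : K) = el 0 0 0 by simp [el]] at e
    have := (el_inj e).2.1
    norm_num at this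
  have hnorm : Algebra.norm ℚ ((X : K) - theta) = X ^ 3 - 16 * X + 16 := by
    rw [el_sub_theta, norm_el]; ring
  have hW : W ≠ 0 := fun e => by
    rw [e] at h
    exact (Algebra.norm_ne_zero_iff.mpr hXne) (by rw [hnorm, ← h]; ring)
  obtain ⟨M, hM⟩ : ∃ M : ℤ, M ^ 2 = q * H := by
    have h1 : IsSquare ((q * H : ℤ) : ℚ) := ⟨W * (q : ℚ) ^ 2, by
      rw [hH]; push_cast; rw [← hX]
      linear_combination -(q : ℚ) ^ 4 * h⟩
    obtain ⟨M, hM⟩ := Rat.isSquare_intCast_iff.1 h1
    exact ⟨M, by rw [hM, sq]⟩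
  have hqH : IsCoprime q H := by
    have := (hco.pow_left (m := 3)).symm.add_mul_left_right (-16 * n * q + 16 * q ^ 2)
    rwa [show n ^ 3 + q * (-16 * n * q + 16 * q ^ 2) = H by rw [hH]; ring] at this
  have hHq : (H : ℚ) = W ^ 2 * (q : ℚ) ^ 3 := by
    rw [hH]; push_cast; rw [← hX]; linear_combination -(q : ℚ) ^ 3 * h
  have hHpos : 0 < H := by
    have : (0 : ℚ) < H := by
      rw [hHq]
      have : (0 : ℚ) < q := by exact_mod_cast hq
      positivity
    exact_mod_cast this
  obtain ⟨d, hd | hd⟩ := Int.sq_of_isCoprime hqH hM.symm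
  swap
  · nlinarith [sq_nonneg d]
  obtain ⟨b, hb | hb⟩ := Int.sq_of_isCoprime hqH.symm ((mul_comm H q).trans hM.symm)
  swap
  · nlinarith [sq_nonneg b]
  set γ : 𝓞 K := (n : 𝓞 K) - thetaO * (q : 𝓞 K) with hγ
  set G : 𝓞 K := (n : 𝓞 K) ^ 2 + thetaO * (n : 𝓞 K) * (q : 𝓞 K) +
    (thetaO ^ 2 - 16) * (q : 𝓞 K) ^ 2 with hG
  have hγK : (γ : K) = ((q : ℚ) : K) * ((X : K) - theta) := by
    have hXK : (X : K) * ((q : ℚ) : K) = ((n : ℚ) : K) := by exact_mod_cast hX
    simp [hγ, coe_thetaO]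
    push_cast at hXK
    linear_combination -hXK
  have hγ0 : γ ≠ 0 := fun e => by
    rw [e] at hγK
    simp only [map_zero] at hγK
    rcases mul_eq_zero.mp hγK.symm with e' | e'
    · exact hq0 (by exact_mod_cast e')
    · exact hXne e'
  have hγG : γ * G = (b : 𝓞 K) ^ 2 := by
    have hH' : ((H : ℤ) : 𝓞 K) = (b : 𝓞 K) ^ 2 := by rw [hb]; push_cast; rfl
    rw [← hH', hH, hγ, hG]
    push_cast
    linear_combination -(q : 𝓞 K) ^ 3 * thetaO_eq
  have htwo : phiO ^ 3 = 2 * (2 * phiO - 1) := by linear_combination phiO_eq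
  have hcommon : ∀ P : 𝓞 K, Prime P → P ∣ γ → P ∣ G → P ∣ phiO ∨ P ∣ piThirtySeven := by
    intro P hP h1 h2
    have h3 : P ∣ (4 * (phiO ^ 2 * piThirtySeven)) * (q : 𝓞 K) ^ 2 := by
      have := dvd_sub h2 (dvd_mul_of_dvd_left h1
        ((n : 𝓞 K) + thetaO * (q : 𝓞 K) + thetaO * (q : 𝓞 K)))
      convert this using 1
      simp only [hγ, hG, thetaO, piThirtySeven]
      linear_combination (16 * phiO + 8) * (q : 𝓞 K) ^ 2 * phiO_eq
    rcases hP.dvd_or_dvd h3 with h3 | h3
    swap
    · have h4 := hP.dvd_of_dvd_pow h3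
      have h5 : P ∣ (n : 𝓞 K) := by
        have := dvd_add h1 (dvd_mul_of_dvd_right h4 thetaO)
        rwa [hγ, sub_add_cancel] at this
      exact absurd ((hco.map (Int.castRingHom (𝓞 K))).isUnit_of_dvd' h5 h4) hP.not_isUnit
    rcases hP.dvd_or_dvd h3 with h3 | h3
    · rw [show (4 : 𝓞 K) = 2 * 2 by norm_num] at h3
      have h4 : P ∣ (2 : 𝓞 K) := (hP.dvd_or_dvd h3).elim id id
      exact Or.inl (hP.dvd_of_dvd_pow (n := 3) (htwo ▸ dvd_mul_of_dvd_left h4 _))
    rcases hP.dvd_or_dvd h3 with h3 | h3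
    · exact Or.inl (hP.dvd_of_dvd_pow h3)
    · exact Or.inr h3
  obtain ⟨u, j, k, t, ht⟩ := FA.Curve11.decomp_of_mul_eq_sq prime_phiO prime_piThirtySeven γ G _ hγ0 hγG hcommon
  obtain ⟨j', j₀, hj, rfl⟩ : ∃ j' j₀, j₀ < 2 ∧ j = j₀ + 2 * j' :=
    ⟨j / 2, j % 2, Nat.mod_lt _ two_pos, (Nat.mod_add_div j 2).symm⟩
  obtain ⟨k', k₀, hk, rfl⟩ : ∃ k' k₀, k₀ < 2 ∧ k = k₀ + 2 * k' :=
    ⟨k / 2, k % 2, Nat.mod_lt _ two_pos, (Nat.mod_add_div k 2).symm⟩
  set T : K := (phiO : K) ^ j' * (piThirtySeven : K) ^ k' * (t : K) with hT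
  have hγT : (γ : K) = ((u : 𝓞 K) : K) * (phiO : K) ^ j₀ * (piThirtySeven : K) ^ k₀ * T ^ 2 := by
    rw [ht, hT]; simp only [map_mul, map_pow]; ring
  have hd0 : (d : ℚ) ≠ 0 := by
    intro e'
    rw [hd, Int.cast_pow, e'] at hq0
    exact hq0 (by norm_num)
  set S : K := T / ((d : ℚ) : K) with hS
  have hXT : (X : K) - theta = ((u : 𝓞 K) : K) * (phiO : K) ^ j₀ * (piThirtySeven : K) ^ k₀ * S ^ 2 := by
    have hdK : ((d : ℚ) : K) ≠ 0 := by exact_mod_cast hd0
    rw [hS, div_pow, ← mul_div_assoc, ← hγT, hγK, hd, eq_div_iff (pow_ne_zero _ hdK)]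
    push_cast
    ring
  have hS0 : S ≠ 0 := fun e' => hXne (by rw [hXT, e']; ring)
  set N := Algebra.norm ℚ S
  have hN0 : N ≠ 0 := Algebra.norm_ne_zero_iff.mpr hS0
  have hn := congrArg (Algebra.norm ℚ) hXT
  rw [hnorm, ← h, map_mul, map_mul, map_mul, map_pow, map_pow, map_pow, coe_phiO, norm_phi,
    norm_piThirtySeven] at hn
  have hNu : Algebra.norm ℚ ((u : 𝓞 K) : K) = 1 ∨ Algebra.norm ℚ ((u : 𝓞 K) : K) = -1 := by
    rw [← Algebra.coe_norm_int]
    rcases Int.isUnit_iff.mp (u.isUnit.map (Algebra.norm ℤ)) with e | e <;> simp [e]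
  have notsq : ∀ r : ℤ, ¬ IsSquare r → W ^ 2 ≠ (r : ℚ) * N ^ 2 := fun r hr e' =>
    hr (Rat.isSquare_intCast_iff.1 ⟨W / N, by field_simp; linear_combination -e'⟩)
  have bad : ∀ r : ℤ, r ∈ [2, -2, 37, -37, 74, -74] → W ^ 2 ≠ (r : ℚ) * N ^ 2 := by
    intro r hr
    refine notsq r ?_
    fin_cases hr <;> decide +kernel
  have b2 : W ^ 2 ≠ 2 * N ^ 2 := by simpa using bad 2 (by simp)
  have b3 : W ^ 2 ≠ -(2 * N ^ 2) := by simpa using bad (-2) (by simp)
  have b4 : W ^ 2 ≠ 37 * N ^ 2 := by simpa using bad 37 (by simp)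
  have b5 : W ^ 2 ≠ -(37 * N ^ 2) := by simpa using bad (-37) (by simp)
  have b6 : W ^ 2 ≠ 74 * N ^ 2 := by simpa using bad 74 (by simp)
  have b7 : W ^ 2 ≠ -(74 * N ^ 2) := by simpa using bad (-74) (by simp)
  obtain ⟨rfl, rfl⟩ : j₀ = 0 ∧ k₀ = 0 := by
    rcases hNu with e | e <;> rw [e] at hn <;> interval_cases j₀ <;> interval_cases k₀ <;>
      norm_num at hn <;>
      first
        | exact ⟨rfl, rfl⟩
        | (exfalso
           first
             | (apply b2; linarith; done)
             | (apply b3; linarith; done)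
             | (apply b4; linarith; done)
             | (apply b5; linarith; done)
             | (apply b6; linarith; done)
             | (apply b7; linarith; done))
  rw [pow_zero, pow_zero, mul_one, mul_one] at hXT
  -- the signs
  have hσ : ∀ i, sig i ((X : K) - theta) = (X : ℝ) - 2 * root i := fun i => by
    simp [theta, sig_phi, map_ofNat]
  have hprod : 0 < ((X : ℝ) - 2 * root 0) * ((X : ℝ) - 2 * root 1) * ((X : ℝ) - 2 * root 2) := by
    rw [show ((X : ℝ) - 2 * root 0) * ((X : ℝ) - 2 * root 1) * ((X : ℝ) - 2 * root 2) =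
      (W : ℝ) ^ 2 by
        have hR : (W : ℝ) ^ 2 = (X : ℝ) ^ 3 - 16 * X + 16 := by exact_mod_cast h
        linear_combination 8 * prod_sub_root ((X : ℝ) / 2) - hR]
    positivity
  have hsigns : ∀ i, signs u i = decide ((X : ℝ) - 2 * root i < 0) := fun i => by
    rw [← hσ, hXT, map_mul, map_pow, signs]
    have hpos : 0 < sig i S ^ 2 := by
      have := (map_ne_zero (sig i)).mpr hS0
      positivity
    exact decide_eq_decide.mpr
      ⟨fun h' => mul_neg_of_neg_of_pos h' hpos, fun h' => neg_of_mul_neg_left h' hpos.le⟩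
  have h01 : (X : ℝ) - 2 * root 1 < (X : ℝ) - 2 * root 0 := by
    linarith [root_zero_mem.2, root_one_mem.1]
  have h12 : (X : ℝ) - 2 * root 2 < (X : ℝ) - 2 * root 1 := by
    linarith [root_one_mem.2, root_two_mem.1]
  have hA : 0 < (X : ℝ) - 2 * root 0 := by
    by_contra! hA
    nlinarith [mul_pos (neg_pos.mpr (lt_of_lt_of_le h01 hA))
      (neg_pos.mpr (lt_trans h12 (lt_of_lt_of_le h01 hA)))]
  rcases lt_or_ge ((X : ℝ) - 2 * root 1) 0 with hB | hB
  · have hC : (X : ℝ) - 2 * root 2 < 0 := h12.trans hB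
    obtain ⟨η, hη⟩ := exists_sq_of_signs (u := u * unitB) (by
      rw [signs_mul, signs_unitB]
      funext i
      rw [hsigns]
      fin_cases i <;> simp <;> linarith)
    refine ⟨((η : 𝓞 K) : K) / (1 - 2 * phi) * S, Or.inr ?_⟩
    have hB0 : (1 - 2 * phi : K) ≠ 0 := coe_unitB ▸ Units.coe_ne_zero unitB
    have e := congrArg (fun v : (𝓞 K)ˣ => ((v : 𝓞 K) : K)) hη
    simp only [Units.val_mul, Units.val_pow_eq_pow_val, map_mul, map_pow, coe_unitB] at e
    clear_value S
    rw [hXT, mul_pow, div_pow]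
    field_simp
    linear_combination e
  · have hC : 0 ≤ (X : ℝ) - 2 * root 2 := by
      by_contra! hC
      nlinarith [mul_nonneg hA.le hB]
    obtain ⟨η, rfl⟩ := exists_sq_of_signs (u := u) (by
      funext i
      rw [hsigns]
      fin_cases i <;> simp <;> linarith)
    refine ⟨((η : 𝓞 K) : K) * S, Or.inl ?_⟩
    rw [hXT]
    simp [mul_pow]

instance isElliptic_short : (shortCurve (0 : ℚ) (-16) 16).IsElliptic :=
  ⟨isUnit_iff_ne_zero.mpr (by
    norm_num [shortCurve, WeierstrassCurve.Δ, WeierstrassCurve.b₂, WeierstrassCurve.b₄,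
      WeierstrassCurve.b₆, WeierstrassCurve.b₈])⟩

/-- The powers of `θ` span the field. -/
theorem span_theta (k : K) :
    ∃ x y z : ℚ, k = (x : K) + (y : K) * theta + (z : K) * theta ^ 2 := by
  obtain ⟨x, y, z, rfl⟩ := exists_el k
  refine ⟨x, y / 2, z / 4, ?_⟩
  simp only [el, theta]
  push_cast
  ring

/-- Every point is twice a point or one fixed point plus such a point. -/
theorem exists_half_or :
    ∃ B : (shortCurve (0 : ℚ) (-16) 16).toAffine.Point, ∀ P, ∃ R, P = 2 • R ∨ P = B + 2 • R :=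
  FA.TwoDescent.exists_half_or (a := 0) (b := -16) (d := 16)
    (by push_cast; linear_combination theta_eq) (fun _ _ _ h => quad_theta_eq_zero h) span_theta
    (1 - 2 * phi) fun _ W h => sub_theta_class (W := W) (by linear_combination h)

end FA.Curve37

end
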